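/-
S38 / S39 / S59-LL, leaf COMPLETE (cluster L, helper37): the congruence between an eigenform and
an elliptic curve at ALMOST ALL good primes implies the congruence at ALL good primes prime to the
level and to `p`.

Why it is needed: level lowering (Mazur's principle, Ribet) produces the eigenform `g` of the
lower level with the congruence `a_ℓ(g) ≡ a_ℓ(W)` only for `ℓ` outside a finite set (the primes
lost in the core and the removed prime `q`), while the frozen statements S38, S39, S40 keep the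
integral model `W` and ask for the congruence at every good prime `ℓ ∤ (M / q) p`.  (In the Frey
forms S43, S44 the model may be rescaled, so COMPLETE is not needed there.)

Proof sketch (no irreducibility is needed).  `k := ℤ̄ / 𝔪`, `φ : ℤ̄ → k`; `ρ_g` the residual
representation of `g` over `k` given by S29 (`Fermat/Agent/S29.lean`): `IsAttachedTo g φ`, so
`charpoly ρ_g(Frob_ℓ) = X² - φ(a_ℓ) X + ℓ` at every `ℓ ∤ M p`, and `ρ_g` factors through a finite
level.  `ρ_W` on `E[p]`: item 62 (`Lib/EllFinite/Main.lean`, `stmt_main`) gives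
`tr ρ_W(Frob_ℓ) = a_ℓ(W)` in `ZMod p` at every good `ℓ ≠ p`.  Let `L` be a finite Galois extension
through which both factor.  CHEBOTAREV (`S48`, helper43: `exists_frobPrime` / `stmt_Cheb`): every
`σ ∈ Gal(L/ℚ)` is the restriction of a Frobenius element at some prime `ℓ'` outside any given
finite set.  Hence `tr ρ_g(σ) = tr ρ_W(σ)` in `k` for every `σ ∈ G_ℚ`; apply this to a Frobenius
element at the given good prime `ℓ` (`Lib/FrobExists.lean`): `φ(a_ℓ(g)) = a_ℓ(W)` in `k`, i.e.
`a_ℓ(g) - a_ℓ(W) ∈ ker φ = 𝔪`.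
-/
import Fermat.Prelude.Def_FLTPrelim_ModularRep

set_option autoImplicit false

open WeierstrassCurve

namespace Fermat.Agent.S38

/-- **COMPLETE.**  The congruence at almost all good primes gives the congruence at all good
primes `ℓ ∤ M p`. -/
def Stmt_Complete : Prop :=
  ∀ (p : ℕ), p.Prime → ∀ (W : WeierstrassCurve ℤ), W.Δ ≠ 0 →
    ∀ (M : ℕ), 0 < M → ∀ (g : CuspForm (CongruenceSubgroup.Gamma0 M) 2)
      (𝔪 : Ideal (integralClosure ℤ ℂ)) (S : Finset ℕ),
      g.IsNormalizedEigenform → 𝔪.IsMaximal → (p : integralClosure ℤ ℂ) ∈ 𝔪 →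
      (∀ ℓ : ℕ, ℓ.Prime → ℓ ∉ S → W.IsGoodPrimeFor ℓ → ¬ ℓ ∣ M → ℓ ≠ p →
        ∃ a : integralClosure ℤ ℂ, (a : ℂ) = ModularFormClass.qCoeff g ℓ ∧
          a - ((W.apOfModel ℓ : ℤ) : integralClosure ℤ ℂ) ∈ 𝔪) →
      ∀ ℓ : ℕ, ℓ.Prime → W.IsGoodPrimeFor ℓ → ¬ ℓ ∣ M → ℓ ≠ p →
        ∃ a : integralClosure ℤ ℂ, (a : ℂ) = ModularFormClass.qCoeff g ℓ ∧
          a - ((W.apOfModel ℓ : ℤ) : integralClosure ℤ ℂ) ∈ 𝔪

end Fermat.Agent.S38
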