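import Fermat.Agent.S38.Complete.Defs
import Fermat.Agent.S29
import Fermat.Agent.S58.H99_Tors
import Fermat.Agent.S59.Asm.H57_Compat
import Fermat.Agent.Lib.FrobExists

/-!
# S38 / S39 / S59-LL, leaf COMPLETE (helper49)

`stmt_Complete : Fermat.Agent.S38.Stmt_Complete`: the congruence between an eigenform `g` and an
integral Weierstrass curve `W` at almost all good primes gives the congruence at all good primes
`ℓ ∤ M p`.

Proof: `k = ℤ̄ / 𝔪`; `ρ_g` over `k` from S29; `ρ_W = E[p] ⊗ k`.  Their Frobenius characteristic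
polynomials agree outside a finite set of primes, hence everywhere by Frobenius density
(`R.H91.charpoly_eq_of_frobenius`); compare the coefficients of `X` at a Frobenius element at `ℓ`.
-/

set_option autoImplicit false

open Polynomial WeierstrassCurve

namespace Fermat.Agent.S38.H49

open Fermat.Agent.S58 Fermat.Agent.S58.H99

/-- The characteristic polynomial of `E[p] ⊗ k` at a Frobenius element at a good prime. -/
theorem charpoly_torsRes_baseChange (W : WeierstrassCurve ℤ) (hΔ : W.Δ ≠ 0) (p : ℕ)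
    [Fact p.Prime] (k : Type) [Field k] [Algebra (ZMod p) k]
    (ℓ : ℕ) (hℓ : ℓ.Prime) (hℓp : ℓ ≠ p) (hgood : W.IsGoodPrimeFor ℓ)
    (P : ValuationSubring (AlgebraicClosure ℚ)) (hP : P.LiesOverPrime ℓ) (σ : GQ)
    (hσ : P.IsFrobeniusAt σ ℓ) :
    LinearMap.charpoly (((torsRes W hΔ p).baseChange k).ρ σ) =
      X ^ 2 - C (((W.apOfModel ℓ : ℤ) : k)) * X + C ((ℓ : k)) := by
  have h1 := torsAdic_charpoly W hΔ p ℓ hℓ hℓp hgood P hP σ hσ
  have h2 : LinearMap.charpoly (((torsRes W hΔ p).baseChange k).ρ σ) =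
      (LinearMap.charpoly ((torsRes W hΔ p).ρ σ)).map (algebraMap (ZMod p) k) := by
    have : Module.Finite (ZMod p) (torsRes W hΔ p).V :=
      Module.finite_of_finrank_eq_succ (torsRes W hΔ p).finrank_eq
    exact LinearMap.charpoly_baseChange (A := k) ((torsRes W hΔ p).ρ σ)
  rw [h2]
  have h3 : LinearMap.charpoly ((torsRes W hΔ p).ρ σ) =
      X ^ 2 - C (((W.apOfModel ℓ : ℤ) : ZMod p)) * X + C ((ℓ : ZMod p)) := h1
  rw [h3]
  simp [Polynomial.map_sub, Polynomial.map_add, Polynomial.map_mul, Polynomial.map_pow]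

/-- The coefficient of `X` of `X² - a X + b`. -/
theorem coeff_one_quad {R : Type*} [CommRing R] (a b : R) :
    (X ^ 2 - C a * X + C b : R[X]).coeff 1 = -a := by
  simp [coeff_X_pow, coeff_C]

/-- COMPLETE over an arbitrary field `k` of characteristic `p` with a ring homomorphism
`φ : ℤ̄ → k`: the congruences `φ (a_ℓ(g)) = a_ℓ(W)` at almost all good primes give them at all
good primes `ℓ ∤ M p`. -/
theorem complete_field (p : ℕ) (hp : p.Prime) (W : WeierstrassCurve ℤ) (hΔ : W.Δ ≠ 0)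
    (M : ℕ) (hM : 0 < M) (g : CuspForm (CongruenceSubgroup.Gamma0 M) 2)
    (hg : g.IsNormalizedEigenform) (S : Finset ℕ)
    (k : Type) [Field k] [CharP k p] (φ : integralClosure ℤ ℂ →+* k)
    (hcong : ∀ ℓ : ℕ, ℓ.Prime → ℓ ∉ S → W.IsGoodPrimeFor ℓ → ¬ ℓ ∣ M → ℓ ≠ p →
      ∃ a : integralClosure ℤ ℂ, (a : ℂ) = ModularFormClass.qCoeff g ℓ ∧
        φ a = ((W.apOfModel ℓ : ℤ) : k))
    (ℓ : ℕ) (hℓ : ℓ.Prime) (hgood : W.IsGoodPrimeFor ℓ) (hℓM : ¬ ℓ ∣ M) (hℓp : ℓ ≠ p) :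
    ∃ a : integralClosure ℤ ℂ, (a : ℂ) = ModularFormClass.qCoeff g ℓ ∧
      φ a = ((W.apOfModel ℓ : ℤ) : k) := by
  have : Fact p.Prime := ⟨hp⟩
  letI : Algebra (ZMod p) k := ZMod.algebra k p
  obtain ⟨ρg, hatt, -⟩ := Fermat.Agent.S29.result hg hp φ
  have hℓk : ∀ ℓ' : ℕ, ℓ'.Prime → ℓ' ≠ p → ((ℓ' : ℕ) : k) ≠ 0 := by
    intro ℓ' hℓ' hne h0
    have h1 : p ∣ ℓ' := (CharP.cast_eq_zero_iff k p ℓ').1 h0
    exact hne ((Nat.prime_dvd_prime_iff_eq hp hℓ').1 h1).symm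
  -- the finite set of excluded primes
  have hfrob : ∀ ℓ' : ℕ, ℓ'.Prime → ℓ' ∉ S ∪ badSet W p ∪ M.primeFactors →
      ∀ A : ValuationSubring (AlgebraicClosure ℚ),
      A.LiesOverPrime ℓ' → ∀ σ : GQ, A.IsFrobeniusAt σ ℓ' →
        LinearMap.charpoly ((GaloisRepAdic.ofResidualGaloisRep ρg).ρ σ) =
          LinearMap.charpoly
            ((GaloisRepAdic.ofResidualGaloisRep ((torsRes W hΔ p).baseChange k)).ρ σ) := by
    intro ℓ' hℓ' hℓT A hA σ hσ
    have hS : ℓ' ∉ S := fun h => hℓT (Finset.mem_union_left _ (Finset.mem_union_left _ h))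
    have hbad : ℓ' ∉ badSet W p :=
      fun h => hℓT (Finset.mem_union_left _ (Finset.mem_union_right _ h))
    have hM' : ¬ ℓ' ∣ M := fun h => hℓT (Finset.mem_union_right _
      (Nat.mem_primeFactors.2 ⟨hℓ', h, hM.ne'⟩))
    obtain ⟨hne, hgood'⟩ := not_mem_badSet hΔ hℓ' hbad
    obtain ⟨a, ha, hch⟩ := hatt ℓ' hℓ' hM' (hℓk ℓ' hℓ' hne) A hA σ hσ
    obtain ⟨a', ha', hφ'⟩ := hcong ℓ' hℓ' hS hgood' hM' hne
    have haa : a = a' := Subtype.ext (ha.trans ha'.symm)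
    have h2 := charpoly_torsRes_baseChange W hΔ p k ℓ' hℓ' hne hgood' A hA σ hσ
    show LinearMap.charpoly (ρg.ρ σ) = LinearMap.charpoly (((torsRes W hΔ p).baseChange k).ρ σ)
    rw [hch, h2, haa, hφ']
  have hTk : ∀ x : k, (∀ n : ℕ, x ∈ IsLocalRing.maximalIdeal k ^ n) → x = 0 := by
    intro x hx
    have h1 := hx 1
    rw [pow_one, IsLocalRing.maximalIdeal_eq_bot, Ideal.mem_bot] at h1
    exact h1
  have hall := Fermat.Agent.R.H91.charpoly_eq_of_frobenius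
    Fermat.Agent.Lib.FrobDensity.stmt_FD hTk _ _ _ hfrob
  -- a Frobenius element at `ℓ`
  obtain ⟨A, σ, hA, hσ⟩ := Fermat.Agent.Lib.FrobExists.exists_place_and_frobenius ℓ hℓ
  obtain ⟨a, ha, hch⟩ := hatt ℓ hℓ hℓM (hℓk ℓ hℓ hℓp) A hA σ hσ
  have h2 := charpoly_torsRes_baseChange W hΔ p k ℓ hℓ hℓp hgood A hA σ hσ
  have h3 : LinearMap.charpoly (ρg.ρ σ) =
      LinearMap.charpoly (((torsRes W hΔ p).baseChange k).ρ σ) := hall σ
  rw [hch, h2] at h3
  have h4 := congrArg (fun q : k[X] => q.coeff 1) h3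
  simp only [coeff_one_quad, neg_inj] at h4
  exact ⟨a, ha, h4⟩

/-- **COMPLETE.** -/
theorem stmt_Complete : Fermat.Agent.S38.Stmt_Complete := by
  intro p hp W hΔ M hM g 𝔪 S hg h𝔪 hp𝔪 hcong ℓ hℓ hgood hℓM hℓp
  have := h𝔪
  letI : Field (integralClosure ℤ ℂ ⧸ 𝔪) := Ideal.Quotient.field 𝔪
  have hpk : ((p : ℕ) : integralClosure ℤ ℂ ⧸ 𝔪) = 0 := by
    have : Ideal.Quotient.mk 𝔪 (p : integralClosure ℤ ℂ) = 0 :=
      Ideal.Quotient.eq_zero_iff_mem.2 hp𝔪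
    simpa using this
  have : CharP (integralClosure ℤ ℂ ⧸ 𝔪) p := (CharP.charP_iff_prime_eq_zero hp).2 hpk
  have key : ∀ (a : integralClosure ℤ ℂ) (n : ℤ),
      (Ideal.Quotient.mk 𝔪 a = ((n : ℤ) : integralClosure ℤ ℂ ⧸ 𝔪)) ↔
        a - ((n : ℤ) : integralClosure ℤ ℂ) ∈ 𝔪 := by
    intro a n
    rw [← Ideal.Quotient.eq_zero_iff_mem, map_sub, map_intCast, sub_eq_zero]
  obtain ⟨a, ha, hφ⟩ := complete_field p hp W hΔ M hM g hg S (integralClosure ℤ ℂ ⧸ 𝔪)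
    (Ideal.Quotient.mk 𝔪)
    (fun ℓ' hℓ' hS hgood' hM' hne => by
      obtain ⟨a, ha, hmem⟩ := hcong ℓ' hℓ' hS hgood' hM' hne
      exact ⟨a, ha, (key a _).2 hmem⟩)
    ℓ hℓ hgood hℓM hℓp
  exact ⟨a, ha, (key a _).1 hφ⟩

end Fermat.Agent.S38.H49
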